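/-
S25 package ATLAS/DIV, leaf FinType (helper6325): the chart rings are of finite type.  No sorry.
-/
import Fermat.Agent.S25.ATLAS.DIV.Defs

set_option autoImplicit false

universe u

namespace Fermat.Agent.S25.ATLAS.DIV.FinType

open scoped TensorProduct

open GluedModule HC2928

variable {k : Type u} [Field k] (𝒞 : CurveData k)

/-- `A₁` is a finite type `k`-algebra (it is finite over `k[f]`). -/
theorem finiteType_A₁ : Algebra.FiniteType k 𝒞.A₁ := by
  have := 𝒞.fin₁
  have h1 : Algebra.FiniteType k (Algebra.adjoin k ({𝒞.f} : Set 𝒞.A₁)) := by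
    rw [← Subalgebra.fg_iff_finiteType]
    have := Subalgebra.fg_adjoin_finset (R := k) ({𝒞.f} : Finset 𝒞.A₁)
    simpa using this
  have h2 : Algebra.FiniteType (Algebra.adjoin k ({𝒞.f} : Set 𝒞.A₁)) 𝒞.A₁ := inferInstance
  exact Algebra.FiniteType.trans h1 h2

/-- `A₂` is a finite type `k`-algebra (it is finite over `k[g]`). -/
theorem finiteType_A₂ : Algebra.FiniteType k 𝒞.A₂ := by
  have := 𝒞.fin₂
  have h1 : Algebra.FiniteType k (Algebra.adjoin k ({𝒞.g} : Set 𝒞.A₂)) := by
    rw [← Subalgebra.fg_iff_finiteType]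
    have := Subalgebra.fg_adjoin_finset (R := k) ({𝒞.g} : Finset 𝒞.A₂)
    simpa using this
  have h2 : Algebra.FiniteType (Algebra.adjoin k ({𝒞.g} : Set 𝒞.A₂)) 𝒞.A₂ := inferInstance
  exact Algebra.FiniteType.trans h1 h2

/-- The Hilbert chart is of finite type. -/
theorem finiteType_hilbChart {g : ℕ} (b : Fin g → 𝒞.A₁) :
    Algebra.FiniteType k (HilbChart k 𝒞.A₁ b) := by
  have := finiteType_A₁ 𝒞
  infer_instance

/-- (T) The chart rings `S_b[1/h]` are of finite type. -/
theorem finiteType_away {g : ℕ} (b : Fin g → 𝒞.A₁) (h : HilbChart k 𝒞.A₁ b) :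
    Algebra.FiniteType k (Localization.Away h) := by
  have h1 := finiteType_hilbChart 𝒞 b
  have h2 : Algebra.FiniteType (HilbChart k 𝒞.A₁ b) (Localization.Away h) :=
    IsLocalization.finiteType_of_monoid_fg (Submonoid.powers h) _
  exact Algebra.FiniteType.trans h1 h2

end Fermat.Agent.S25.ATLAS.DIV.FinType
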